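import Fermat.Agent.S56.H906.FlatOSpec
import Fermat.Agent.A2.IF.H429.Inertia

/-!
# Row S56 — FLAT-O leaf (UNR) (helper460)

`unrVal : Fermat.Agent.S56.H906.UnrValStatement`: an element `y ≠ 0` of `ℚ̄` fixed by the inertia
subgroup of a valuation subring `P` over `p` has `v_P(y) = v_P(p) ^ n` for some `n : ℤ`.

This is the landed A2 lemma `Fermat.Agent.A2.IF.H429.exists_zpow_of_mem_inertiaField` (the inertia
field is unramified) restated in the vocabulary of `S56/H906/FlatOSpec.lean`.
-/

set_option autoImplicit false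

namespace Fermat.Agent.S56.H460

/-- (UNR) the valuation of an inertia-fixed element is an integral power of the valuation of
`p`. -/
theorem unrVal : Fermat.Agent.S56.H906.UnrValStatement := by
  intro p hp P hP y hy0 hfix
  have hy : y ∈ Fermat.Agent.A2.IF.H429.inertiaField P :=
    (Fermat.Agent.A2.IF.H429.mem_inertiaField_iff P).mpr hfix
  obtain ⟨k, hk⟩ :=
    Fermat.Agent.A2.IF.H429.exists_zpow_of_mem_inertiaField P p hp hP y hy hy0
  refine ⟨k, ?_⟩
  rw [map_div₀, map_zpow₀] at hk
  have hp0 : P.valuation ((p : ℕ) : AlgebraicClosure ℚ) ≠ 0 := by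
    rw [Ne, map_eq_zero]
    exact_mod_cast hp.ne_zero
  have hne : P.valuation ((p : ℕ) : AlgebraicClosure ℚ) ^ k ≠ 0 := zpow_ne_zero k hp0
  exact (div_eq_one_iff_eq hne).mp hk

end Fermat.Agent.S56.H460
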